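import Mathlib.NumberTheory.NumberField.DedekindZeta
import Mathlib.Analysis.PSeries
import Mathlib.Analysis.SpecialFunctions.Log.Basic
import Mathlib.RingTheory.DedekindDomain.Ideal.Lemmas
import Mathlib.RingTheory.Ideal.Norm.AbsNorm

/-!
# The sum over degree one primes of a number field

For a number field `K`, the sum `∑ N(P) ^ (-s)` over primes of degree one differs from
`log (1 / (s - 1))` by a bounded amount as `s → 1⁺`.
-/

set_option autoImplicit false

open Filter Topology IsDedekindDomain UniqueFactorizationMonoid NumberField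

namespace FLTAgent.Density

set_option maxHeartbeats 400000

variable (K : Type*) [Field K] [NumberField K]

/-- Number of primes of `K` of norm exactly `p`. -/
noncomputable def degOneCount (p : ℕ) : ℕ :=
  Nat.card {P : HeightOneSpectrum (𝓞 K) // Ideal.absNorm P.asIdeal = p}

/-- `I ↦ N(I) ^ (-s)` as a multiplicative map (`s ≠ 0`). -/
noncomputable def normRpow (s : ℝ) : Ideal (𝓞 K) →* ℝ where
  toFun I := (Ideal.absNorm I : ℝ) ^ (-s)
  map_one' := by simp
  map_mul' I J := by rw [map_mul, Nat.cast_mul, Real.mul_rpow (by positivity) (by positivity)]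

theorem normRpow_apply (s : ℝ) (I : Ideal (𝓞 K)) :
    normRpow K s I = (Ideal.absNorm I : ℝ) ^ (-s) := rfl

theorem normRpow_nonneg (s : ℝ) (I : Ideal (𝓞 K)) : 0 ≤ normRpow K s I :=
  Real.rpow_nonneg (by positivity) _

theorem two_le_absNorm (P : HeightOneSpectrum (𝓞 K)) : 2 ≤ Ideal.absNorm P.asIdeal := by
  have h0 : Ideal.absNorm P.asIdeal ≠ 0 := by simpa [Ideal.absNorm_eq_zero_iff] using P.ne_bot
  have h1 : Ideal.absNorm P.asIdeal ≠ 1 := by
    simpa [Ideal.absNorm_eq_one_iff] using P.isPrime.ne_top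
  omega

theorem normRpow_le_half {s : ℝ} (hs : 1 ≤ s) (P : HeightOneSpectrum (𝓞 K)) :
    normRpow K s P.asIdeal ≤ 1 / 2 := by
  have h2 : (2 : ℝ) ≤ (Ideal.absNorm P.asIdeal : ℝ) := by exact_mod_cast two_le_absNorm K P
  rw [normRpow_apply, Real.rpow_neg (by positivity), one_div]
  refine inv_anti₀ (by norm_num) (h2.trans ?_)
  exact Real.self_le_rpow_of_one_le (by linarith) hs

/-- The sum over nonzero ideals. -/
noncomputable def idealZeta (s : ℝ) : ℝ :=
  ∑' I : {I : Ideal (𝓞 K) // I ≠ ⊥}, normRpow K s I.1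

theorem summable_idealZeta_of_ne_zero {s : ℝ} (hs : 1 < s)
    (h : dedekindZeta K (s : ℂ) ≠ 0) :
    Summable (fun I : {I : Ideal (𝓞 K) // I ≠ ⊥} => normRpow K s I.1) ∧
      dedekindZeta K (s : ℂ) = (idealZeta K s : ℂ) := by
  set f : ℕ → ℂ := fun n => (Nat.card {I : Ideal (𝓞 K) // Ideal.absNorm I = n} : ℂ)
  have hsum : Summable (LSeries.term f (s : ℂ)) := by
    by_contra hcon
    exact h (tsum_eq_zero_of_not_summable hcon)
  set N : {I : Ideal (𝓞 K) // I ≠ ⊥} → ℕ := fun I => Ideal.absNorm I.1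
  let e := Equiv.sigmaFiberEquiv N
  have hfib : ∀ n, Finite {I : {I : Ideal (𝓞 K) // I ≠ ⊥} // N I = n} := by
    intro n
    have : Finite {I : Ideal (𝓞 K) // Ideal.absNorm I = n} :=
      (Ideal.finite_setOfPred_absNorm_eq n).to_subtype
    exact Finite.of_injective
      (fun I => (⟨I.1.1, I.2⟩ : {I : Ideal (𝓞 K) // Ideal.absNorm I = n}))
      (fun a b hab => Subtype.ext (Subtype.ext (congrArg Subtype.val hab :)))
  set g : ℕ → ℝ := fun n => (Nat.card {I : {I : Ideal (𝓞 K) // I ≠ ⊥} // N I = n} : ℝ) *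
    (n : ℝ) ^ (-s)
  have hg : ∀ n, LSeries.term f (s : ℂ) n = (g n : ℂ) := by
    intro n
    rcases eq_or_ne n 0 with rfl | hn
    · have hne : (-s) ≠ 0 := by linarith
      simp [g, Real.zero_rpow hne]
    · have hcard : Nat.card {I : {I : Ideal (𝓞 K) // I ≠ ⊥} // N I = n} =
          Nat.card {I : Ideal (𝓞 K) // Ideal.absNorm I = n} := by
        refine Nat.card_congr (Equiv.subtypeSubtypeEquivSubtype (q := fun I => Ideal.absNorm I = n) ?_)
        intro I hI hbot
        exact hn (by rw [← hI, hbot, Ideal.absNorm_bot])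
      rw [LSeries.term_of_ne_zero hn]
      simp only [g, f, hcard, Complex.ofReal_mul, Complex.ofReal_natCast]
      rw [Complex.ofReal_cpow (by positivity), Complex.ofReal_natCast, Complex.ofReal_neg,
        Complex.cpow_neg, div_eq_mul_inv]
  have hgsum : Summable g := by
    rw [← Complex.summable_ofReal]
    exact hsum.congr hg
  have hinner : ∀ n, ∑' I : {I : {I : Ideal (𝓞 K) // I ≠ ⊥} // N I = n},
      normRpow K s I.1.1 = g n := by
    intro n
    have := hfib n
    have : Fintype {I : {I : Ideal (𝓞 K) // I ≠ ⊥} // N I = n} := Fintype.ofFinite _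
    rw [tsum_fintype, Finset.sum_congr rfl (g := fun _ => (n : ℝ) ^ (-s))
      (fun I _ => by rw [normRpow_apply]; congr 2; exact I.2)]
    simp [g]
  have hsigma : Summable ((fun I : {I : Ideal (𝓞 K) // I ≠ ⊥} => normRpow K s I.1) ∘ e) := by
    refine (summable_sigma_of_nonneg (fun x => normRpow_nonneg K s _)).2 ⟨fun n => ?_, ?_⟩
    · have := hfib n
      exact Summable.of_finite
    · exact hgsum.congr (fun n => (hinner n).symm)
  refine ⟨e.summable_iff.1 hsigma, ?_⟩
  have h1 : idealZeta K s = ∑' n, g n := by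
    rw [idealZeta, ← e.tsum_eq]
    exact (Summable.tsum_sigma' (fun n => by have := hfib n; exact Summable.of_finite) hsigma).trans
      (tsum_congr hinner)
  rw [h1, Complex.ofReal_tsum]
  exact tsum_congr hg

theorem eventually_log_idealZeta :
    ∃ C : ℝ, ∀ᶠ s : ℝ in 𝓝[>] 1,
      Summable (fun I : {I : Ideal (𝓞 K) // I ≠ ⊥} => normRpow K s I.1) ∧
        0 < idealZeta K s ∧ |Real.log (idealZeta K s) - Real.log (1 / (s - 1))| ≤ C := by
  have hpos := dedekindZeta_residue_pos K
  have hlim := tendsto_sub_one_mul_dedekindZeta_nhdsGT K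
  have hne : ∀ᶠ s : ℝ in 𝓝[>] 1, ((s : ℂ) - 1) * dedekindZeta K (s : ℂ) ≠ 0 :=
    hlim.eventually_ne (by exact_mod_cast hpos.ne')
  have hlim' : Tendsto (fun s : ℝ => (s - 1) * idealZeta K s) (𝓝[>] 1)
      (𝓝 (dedekindZeta_residue K)) := by
    rw [Complex.isometry_ofReal.isEmbedding.tendsto_nhds_iff]
    refine hlim.congr' ?_
    filter_upwards [hne, self_mem_nhdsWithin] with s hs hs1
    simp [(summable_idealZeta_of_ne_zero K hs1 (right_ne_zero_of_mul hs)).2]
  refine ⟨|Real.log (dedekindZeta_residue K)| + 1, ?_⟩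
  have hlog := (hlim'.log hpos.ne').abs.eventually_lt_const
    (lt_add_one |Real.log (dedekindZeta_residue K)|)
  filter_upwards [hne, self_mem_nhdsWithin, hlim'.eventually_const_lt hpos, hlog]
    with s hs hs1 hp hl
  have hs1' : (1 : ℝ) < s := hs1
  have hz : 0 < idealZeta K s := pos_of_mul_pos_right hp (by linarith)
  refine ⟨(summable_idealZeta_of_ne_zero K hs1 (right_ne_zero_of_mul hs)).1, hz, ?_⟩
  rw [Real.log_mul (by linarith) hz.ne'] at hl
  rw [one_div, Real.log_inv, sub_neg_eq_add, add_comm]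
  exact hl.le

/-- Expansion of a finite box of ideals supported on a finite set `T` of primes. -/
noncomputable def boxIdeal (T : Finset (HeightOneSpectrum (𝓞 K))) (e : T → ℕ) : Ideal (𝓞 K) :=
  ∏ P : T, P.1.asIdeal ^ e P

theorem boxIdeal_ne_bot (T : Finset (HeightOneSpectrum (𝓞 K))) (e : T → ℕ) :
    boxIdeal K T e ≠ ⊥ :=
  Finset.prod_ne_zero_iff.2 fun P _ => pow_ne_zero _ P.1.ne_bot

theorem boxIdeal_injective (T : Finset (HeightOneSpectrum (𝓞 K))) :
    Function.Injective (boxIdeal K T) := by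
  classical
  intro e e' h
  have key : ∀ e : T → ℕ, normalizedFactors (boxIdeal K T e) =
      ∑ P : T, Multiset.replicate (e P) P.1.asIdeal := by
    intro e
    have : boxIdeal K T e = (∑ P : T, Multiset.replicate (e P) P.1.asIdeal).prod := by
      rw [Multiset.prod_sum]
      exact Finset.prod_congr rfl (fun P _ => (Multiset.prod_replicate _ _).symm)
    rw [this]
    refine normalizedFactors_prod_of_prime fun I hI => ?_
    obtain ⟨P, -, hP⟩ := Multiset.mem_sum.1 hI
    rw [Multiset.eq_of_mem_replicate hP]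
    exact P.1.prime
  have cnt : ∀ (e : T → ℕ) (Q : T),
      (∑ P : T, Multiset.replicate (e P) P.1.asIdeal).count Q.1.asIdeal = e Q := by
    intro e Q
    rw [Multiset.count_sum', Finset.sum_eq_single Q]
    · simp
    · intro P _ hPQ
      rw [Multiset.count_replicate, if_neg]
      exact fun h => hPQ (Subtype.ext (HeightOneSpectrum.ext h))
    · simp
  funext Q
  rw [← cnt e Q, ← cnt e' Q, ← key, ← key, h]

theorem exists_boxIdeal_eq (T : Finset (HeightOneSpectrum (𝓞 K))) {I : Ideal (𝓞 K)} (hI : I ≠ ⊥)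
    (hT : ∀ P : HeightOneSpectrum (𝓞 K), P.asIdeal ∈ normalizedFactors I → P ∈ T) :
    ∃ e : T → ℕ, (∀ P, e P ≤ Multiset.card (normalizedFactors I)) ∧ boxIdeal K T e = I := by
  classical
  refine ⟨fun P => (normalizedFactors I).count P.1.asIdeal,
    fun P => Multiset.count_le_card _ _, ?_⟩
  conv_rhs => rw [← associated_iff_eq.1 (prod_normalizedFactors hI),
    Finset.prod_multiset_count_of_subset (normalizedFactors I)
      (T.image HeightOneSpectrum.asIdeal) (fun J hJ => by
        rw [Multiset.mem_toFinset] at hJ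
        have hp := prime_of_normalized_factor J hJ
        exact Finset.mem_image.2 ⟨⟨J, Ideal.isPrime_of_prime hp, hp.ne_zero⟩, hT _ hJ, rfl⟩)]
  rw [Finset.prod_image (fun a _ b _ h => HeightOneSpectrum.ext h)]
  exact Finset.prod_coe_sort T (fun P => P.asIdeal ^ Multiset.count P.asIdeal (normalizedFactors I))

/-- The logarithm of an Euler factor. -/
noncomputable def eulerLog (s : ℝ) (P : HeightOneSpectrum (𝓞 K)) : ℝ :=
  - Real.log (1 - normRpow K s P.asIdeal)

theorem geom_eq_exp_eulerLog {s : ℝ} (hs : 1 ≤ s) (P : HeightOneSpectrum (𝓞 K)) :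
    (1 - normRpow K s P.asIdeal)⁻¹ = Real.exp (eulerLog K s P) := by
  have := normRpow_le_half K hs P
  rw [eulerLog, Real.exp_neg, Real.exp_log (by linarith)]

theorem eulerLog_bounds {s : ℝ} (hs : 1 ≤ s) (P : HeightOneSpectrum (𝓞 K)) :
    normRpow K s P.asIdeal ≤ eulerLog K s P ∧
      eulerLog K s P - normRpow K s P.asIdeal ≤ 2 * normRpow K s P.asIdeal ^ 2 ∧
      eulerLog K s P ≤ 2 * normRpow K s P.asIdeal := by
  have h1 := normRpow_le_half K hs P
  have h0 := normRpow_nonneg K s P.asIdeal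
  set x := normRpow K s P.asIdeal
  have hlo := Real.log_le_sub_one_of_pos (show (0 : ℝ) < 1 - x by linarith)
  have hup := Real.one_sub_inv_le_log_of_pos (show (0 : ℝ) < 1 - x by linarith)
  have hinv : (1 - x)⁻¹ ≤ 2 := by
    rw [inv_le_comm₀ (by linarith) (by norm_num)]
    linarith
  have hne : (1 - x) * (1 - x)⁻¹ = 1 := mul_inv_cancel₀ (by linarith)
  have hid : (1 - x)⁻¹ - 1 = x * (1 - x)⁻¹ := by linear_combination hne
  have hid2 : x * (1 - x)⁻¹ - x = x ^ 2 * (1 - x)⁻¹ := by linear_combination x * hne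
  have hm1 : x * (1 - x)⁻¹ ≤ x * 2 := mul_le_mul_of_nonneg_left hinv h0
  have hm2 : x ^ 2 * (1 - x)⁻¹ ≤ x ^ 2 * 2 := mul_le_mul_of_nonneg_left hinv (sq_nonneg x)
  unfold eulerLog
  refine ⟨by linarith, by linarith, by linarith⟩

theorem sum_boxIdeal_le (T : Finset (HeightOneSpectrum (𝓞 K))) {s : ℝ}
    (hsum : Summable (fun I : {I : Ideal (𝓞 K) // I ≠ ⊥} => normRpow K s I.1))
    (B : Finset (T → ℕ)) :
    ∑ e ∈ B, normRpow K s (boxIdeal K T e) ≤ idealZeta K s := by
  unfold idealZeta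
  generalize hf : (fun I : {I : Ideal (𝓞 K) // I ≠ ⊥} => normRpow K s I.1) = f at hsum ⊢
  let ι : (T → ℕ) ↪ {I : Ideal (𝓞 K) // I ≠ ⊥} :=
    ⟨fun e => ⟨boxIdeal K T e, boxIdeal_ne_bot K T e⟩,
      fun a b h => boxIdeal_injective K T (congrArg Subtype.val h)⟩
  have h1 : ∀ e, normRpow K s (boxIdeal K T e) = f (ι e) := fun e => by rw [← hf]; rfl
  simp only [h1]
  rw [← Finset.sum_map]
  exact hsum.sum_le_tsum _ fun I _ => by rw [← hf]; exact normRpow_nonneg K s _

theorem hasSum_eulerLog {s : ℝ} (hs : 1 ≤ s)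
    (hsum : Summable (fun I : {I : Ideal (𝓞 K) // I ≠ ⊥} => normRpow K s I.1))
    (hpos : 0 < idealZeta K s) :
    HasSum (eulerLog K s) (Real.log (idealZeta K s)) := by
  classical
  have hx : ∀ P : HeightOneSpectrum (𝓞 K), normRpow K s P.asIdeal < 1 := fun P =>
    lt_of_le_of_lt (normRpow_le_half K hs P) (by norm_num)
  have hbox : ∀ (T : Finset (HeightOneSpectrum (𝓞 K))) (n : ℕ),
      ∏ P : T, ∑ j ∈ Finset.range n, normRpow K s P.1.asIdeal ^ j =
        ∑ e ∈ Fintype.piFinset (fun _ : T => Finset.range n), normRpow K s (boxIdeal K T e) := by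
    intro T n
    rw [Finset.prod_univ_sum]
    exact Finset.sum_congr rfl (fun e _ => by simp [boxIdeal, map_prod, map_pow])
  have hle : ∀ T : Finset (HeightOneSpectrum (𝓞 K)),
      ∑ P ∈ T, eulerLog K s P ≤ Real.log (idealZeta K s) := by
    intro T
    rw [Real.le_log_iff_exp_le hpos, Real.exp_sum, ← Finset.prod_coe_sort T]
    simp_rw [← geom_eq_exp_eulerLog K hs]
    have hlim : Tendsto (fun n => ∏ P : T, ∑ j ∈ Finset.range n, normRpow K s P.1.asIdeal ^ j)
        atTop (𝓝 (∏ P : T, (1 - normRpow K s P.1.asIdeal)⁻¹)) :=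
      tendsto_finsetProd _ fun P _ =>
        (hasSum_geometric_of_lt_one (normRpow_nonneg K s _) (hx P.1)).tendsto_sum_nat
    refine le_of_tendsto' hlim fun n => ?_
    rw [hbox]
    exact sum_boxIdeal_le K T hsum _
  have hnn : ∀ P, 0 ≤ eulerLog K s P := fun P =>
    (normRpow_nonneg K s _).trans (eulerLog_bounds K hs P).1
  have hsumm : Summable (eulerLog K s) := summable_of_sum_le hnn hle
  refine hsumm.hasSum_iff.2 (le_antisymm (hsumm.tsum_le_of_sum_le hle) ?_)
  rw [Real.log_le_iff_le_exp hpos]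
  refine hsum.tsum_le_of_sum_le fun F => ?_
  let T : Finset (HeightOneSpectrum (𝓞 K)) := F.biUnion fun I =>
    (normalizedFactors I.1).toFinset.preimage HeightOneSpectrum.asIdeal
      (fun a _ b _ h => HeightOneSpectrum.ext h)
  set M := (F.sup fun I => Multiset.card (normalizedFactors I.1)) + 1
  have hex : ∀ I : {I : Ideal (𝓞 K) // I ≠ ⊥}, I ∈ F →
      ∃ e ∈ Fintype.piFinset (fun _ : T => Finset.range M), boxIdeal K T e = I.1 := by
    intro I hI
    obtain ⟨e, he, heq⟩ := exists_boxIdeal_eq K T I.2 (fun P hP =>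
      Finset.mem_biUnion.2 ⟨I, hI, by simpa using hP⟩)
    refine ⟨e, Fintype.mem_piFinset.2 fun P => Finset.mem_range.2 ?_, heq⟩
    exact lt_of_le_of_lt (he P) (Nat.lt_succ_of_le (Finset.le_sup
      (f := fun I : {I : Ideal (𝓞 K) // I ≠ ⊥} => Multiset.card (normalizedFactors I.1)) hI))
  calc ∑ I ∈ F, normRpow K s I.1
      ≤ ∑ e ∈ Fintype.piFinset (fun _ : T => Finset.range M), normRpow K s (boxIdeal K T e) := by
        rw [← Finset.sum_image (f := normRpow K s) (g := Subtype.val)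
          Subtype.val_injective.injOn]
        rw [← Finset.sum_image (f := normRpow K s) (g := boxIdeal K T)
          (boxIdeal_injective K T).injOn]
        refine Finset.sum_le_sum_of_subset_of_nonneg ?_ (fun I _ _ => normRpow_nonneg K s I)
        intro J hJ
        obtain ⟨I, hI, rfl⟩ := Finset.mem_image.1 hJ
        obtain ⟨e, he, heq⟩ := hex I hI
        exact Finset.mem_image.2 ⟨e, he, heq⟩
    _ = ∏ P : T, ∑ j ∈ Finset.range M, normRpow K s P.1.asIdeal ^ j := (hbox T M).symm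
    _ ≤ ∏ P : T, (1 - normRpow K s P.1.asIdeal)⁻¹ :=
        Finset.prod_le_prod
          (fun P _ => Finset.sum_nonneg fun j _ => pow_nonneg (normRpow_nonneg K s _) j)
          (fun P _ => sum_le_hasSum _ (fun j _ => pow_nonneg (normRpow_nonneg K s _) j)
            (hasSum_geometric_of_lt_one (normRpow_nonneg K s _) (hx P.1)))
    _ = Real.exp (∑ P ∈ T, eulerLog K s P) := by
        rw [Real.exp_sum, ← Finset.prod_coe_sort T]
        exact Finset.prod_congr rfl fun P _ => geom_eq_exp_eulerLog K hs P.1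
    _ ≤ Real.exp (∑' P, eulerLog K s P) :=
        Real.exp_le_exp.2 (hsumm.sum_le_tsum _ fun P _ => hnn P)

/-- The rational prime below `P`. -/
noncomputable def baseP (P : HeightOneSpectrum (𝓞 K)) : ℕ :=
  (Ideal.absNorm P.asIdeal).minFac

theorem baseP_spec (P : HeightOneSpectrum (𝓞 K)) :
    (baseP K P).Prime ∧ ((baseP K P : ℕ) : 𝓞 K) ∈ P.asIdeal ∧
      baseP K P ≤ Ideal.absNorm P.asIdeal ∧
      (¬ (Ideal.absNorm P.asIdeal).Prime → baseP K P ^ 2 ≤ Ideal.absNorm P.asIdeal) := by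
  have := P.isMaximal
  obtain ⟨p, n, hn, hpP, hp, hN⟩ := Ideal.exists_prime_and_absNorm_eq_pow P.asIdeal
  have hb : baseP K P = p := by rw [baseP, hN, hp.pow_minFac hn.ne']
  rw [hb, hN]
  refine ⟨hp, hpP, Nat.le_self_pow hn.ne' p, fun h => Nat.pow_le_pow_right hp.pos ?_⟩
  rcases Nat.lt_or_ge n 2 with h2 | h2
  · obtain rfl : n = 1 := by omega
    exact absurd (by simpa using hp) h
  · exact h2

theorem card_le_finrank_of_baseP_eq {p : ℕ} (hp : p.Prime) (T : Finset (HeightOneSpectrum (𝓞 K)))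
    (hT : ∀ P ∈ T, baseP K P = p) : T.card ≤ Module.finrank ℤ (𝓞 K) := by
  classical
  have hdvd : ∏ J ∈ T.image HeightOneSpectrum.asIdeal, J ∣ Ideal.span {(p : 𝓞 K)} := by
    refine Finset.prod_primes_dvd _ ?_ ?_
    · intro J hJ
      obtain ⟨P, -, rfl⟩ := Finset.mem_image.1 hJ
      exact P.prime
    · intro J hJ
      obtain ⟨P, hP, rfl⟩ := Finset.mem_image.1 hJ
      rw [Ideal.dvd_iff_le, Ideal.span_singleton_le_iff_mem, ← hT P hP]
      exact (baseP_spec K P).2.1
  have h1 := map_dvd (Ideal.absNorm) hdvd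
  rw [Finset.prod_image (fun a _ b _ h => HeightOneSpectrum.ext h), map_prod,
    Ideal.absNorm_span_natCast] at h1
  have h2 : p ^ T.card ∣ ∏ P ∈ T, Ideal.absNorm P.asIdeal := by
    rw [← Finset.prod_const]
    exact Finset.prod_dvd_prod_of_dvd _ _ fun P hP => by
      rw [← hT P hP]; exact Nat.minFac_dvd _
  exact (Nat.pow_dvd_pow_iff_le_right hp.one_lt).1 (h2.trans h1)

theorem summable_baseP_sq :
    Summable fun P : HeightOneSpectrum (𝓞 K) => ((baseP K P : ℝ) ^ 2)⁻¹ := by
  classical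
  set d := Module.finrank ℤ (𝓞 K)
  have hbase : Summable fun n : ℕ => ((n : ℝ) ^ 2)⁻¹ :=
    Real.summable_nat_pow_inv.2 (by norm_num)
  refine summable_of_sum_le (c := (d : ℝ) * ∑' n : ℕ, ((n : ℝ) ^ 2)⁻¹) (fun P => by positivity)
    fun T => ?_
  rw [← Finset.sum_fiberwise_of_maps_to (g := baseP K) (t := T.image (baseP K))
    (fun P hP => Finset.mem_image_of_mem _ hP)]
  calc ∑ n ∈ T.image (baseP K), ∑ P ∈ T with baseP K P = n, ((baseP K P : ℝ) ^ 2)⁻¹
      ≤ ∑ n ∈ T.image (baseP K), (d : ℝ) * ((n : ℝ) ^ 2)⁻¹ := by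
        refine Finset.sum_le_sum fun n hn => ?_
        obtain ⟨Q, -, hQ⟩ := Finset.mem_image.1 hn
        have hcard := card_le_finrank_of_baseP_eq K (hQ ▸ (baseP_spec K Q).1)
          (T.filter fun P => baseP K P = n) (fun P hP => (Finset.mem_filter.1 hP).2)
        rw [Finset.sum_congr rfl (g := fun _ => ((n : ℝ) ^ 2)⁻¹)
          (fun P hP => by rw [(Finset.mem_filter.1 hP).2]), Finset.sum_const, nsmul_eq_mul]
        exact mul_le_mul_of_nonneg_right (by exact_mod_cast hcard) (by positivity)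
    _ ≤ _ := by
        rw [← Finset.mul_sum]
        exact mul_le_mul_of_nonneg_left
          (hbase.sum_le_tsum _ fun n _ => by positivity) (by positivity)

/-- The sum of `N(P) ^ (-s)` over degree one primes, grouped by rational prime, is
`log (1 / (s - 1)) + O(1)` as `s → 1⁺`. -/
theorem eventually_abs_degOne_sub_log_le :
    ∃ C : ℝ, ∀ᶠ s : ℝ in 𝓝[>] 1,
      Summable (fun p : Nat.Primes => (degOneCount K p : ℝ) * (p : ℝ) ^ (-s)) ∧
      |(∑' p : Nat.Primes, (degOneCount K p : ℝ) * (p : ℝ) ^ (-s)) -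
        Real.log (1 / (s - 1))| ≤ C := by
  classical
  obtain ⟨C, hC⟩ := eventually_log_idealZeta K
  refine ⟨C + 2 * ∑' P : HeightOneSpectrum (𝓞 K), ((baseP K P : ℝ) ^ 2)⁻¹, ?_⟩
  filter_upwards [hC, self_mem_nhdsWithin] with s hs hs1
  have hs1' : 1 ≤ s := le_of_lt hs1
  have hL := hasSum_eulerLog K hs1' hs.1 hs.2.1
  set D : Set (HeightOneSpectrum (𝓞 K)) := {P | (Ideal.absNorm P.asIdeal).Prime}
  set y : HeightOneSpectrum (𝓞 K) → ℝ := D.indicator fun P => normRpow K s P.asIdeal
  have hyL : ∀ P, y P ≤ eulerLog K s P := fun P =>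
    (Set.indicator_le_self' (fun Q _ => normRpow_nonneg K s _) P).trans
      (eulerLog_bounds K hs1' P).1
  have hy0 : ∀ P, 0 ≤ y P := Set.indicator_nonneg fun Q _ => normRpow_nonneg K s _
  have hdiff : ∀ P, eulerLog K s P - y P ≤ 2 * ((baseP K P : ℝ) ^ 2)⁻¹ := by
    intro P
    obtain ⟨hp, -, hle, hnp⟩ := baseP_spec K P
    obtain ⟨-, hb2, hb3⟩ := eulerLog_bounds K hs1' P
    have hpos : (0 : ℝ) < baseP K P := by exact_mod_cast hp.pos
    have hN : normRpow K s P.asIdeal ≤ (Ideal.absNorm P.asIdeal : ℝ)⁻¹ := by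
      rw [normRpow_apply, ← Real.rpow_neg_one]
      exact Real.rpow_le_rpow_of_exponent_le
        (by exact_mod_cast (two_le_absNorm K P).trans' one_le_two) (by linarith)
    by_cases hD : P ∈ D
    · rw [show y P = normRpow K s P.asIdeal from Set.indicator_of_mem hD _]
      refine hb2.trans (mul_le_mul_of_nonneg_left ?_ zero_le_two)
      rw [← inv_pow]
      refine pow_le_pow_left₀ (normRpow_nonneg K s _) (hN.trans ?_) 2
      exact inv_anti₀ hpos (by exact_mod_cast hle)
    · rw [show y P = 0 from Set.indicator_of_notMem hD _, sub_zero]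
      refine hb3.trans (mul_le_mul_of_nonneg_left (hN.trans ?_) zero_le_two)
      exact inv_anti₀ (pow_pos hpos 2) (by exact_mod_cast hnp hD)
  have hysum : Summable y := hL.summable.of_nonneg_of_le hy0 hyL
  -- regroup by rational prime
  have hfin : ∀ p : Nat.Primes, Finite {P : HeightOneSpectrum (𝓞 K) //
      Ideal.absNorm P.asIdeal = p} := by
    intro p
    have : Finite {I : Ideal (𝓞 K) // Ideal.absNorm I = p} :=
      (Ideal.finite_setOfPred_absNorm_eq (p : ℕ)).to_subtype
    exact Finite.of_injective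
      (fun P => (⟨P.1.asIdeal, P.2⟩ : {I : Ideal (𝓞 K) // Ideal.absNorm I = p}))
      (fun a b hab => Subtype.ext (HeightOneSpectrum.ext (congrArg Subtype.val hab :)))
  let e : (Σ p : Nat.Primes, {P : HeightOneSpectrum (𝓞 K) // Ideal.absNorm P.asIdeal = p}) ≃ D :=
    { toFun := fun x => ⟨x.2.1, by
        show (Ideal.absNorm x.2.1.asIdeal).Prime
        rw [x.2.2]; exact x.1.2⟩
      invFun := fun P => ⟨⟨_, P.2⟩, ⟨P.1, rfl⟩⟩
      left_inv := fun ⟨⟨p, hp⟩, ⟨P, hP⟩⟩ => by
        change Ideal.absNorm P.asIdeal = p at hP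
        subst hP
        rfl
      right_inv := fun P => rfl }
  have hDsum : Summable fun P : D => normRpow K s P.1.asIdeal := by
    exact summable_subtype_iff_indicator.2 hysum
  have hinner : ∀ p : Nat.Primes,
      ∑' P : {P : HeightOneSpectrum (𝓞 K) // Ideal.absNorm P.asIdeal = p},
        normRpow K s P.1.asIdeal = (degOneCount K p : ℝ) * (p : ℝ) ^ (-s) := by
    intro p
    have := hfin p
    have := Fintype.ofFinite {P : HeightOneSpectrum (𝓞 K) // Ideal.absNorm P.asIdeal = p}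
    rw [tsum_fintype, Finset.sum_congr rfl (g := fun _ => (p : ℝ) ^ (-s))
      (fun P _ => by rw [normRpow_apply, P.2])]
    simp [degOneCount]
  have hsig := e.summable_iff.2 hDsum
  have hcount : Summable (fun p : Nat.Primes => (degOneCount K p : ℝ) * (p : ℝ) ^ (-s)) :=
    ((summable_sigma_of_nonneg (fun x => normRpow_nonneg K s _)).1 hsig).2.congr hinner
  have htsum : ∑' p : Nat.Primes, (degOneCount K p : ℝ) * (p : ℝ) ^ (-s) = ∑' P, y P := by
    rw [← tsum_subtype, ← e.tsum_eq]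
    exact (tsum_congr hinner).symm.trans (Summable.tsum_sigma'
      (fun p => by have := hfin p; exact Summable.of_finite) hsig).symm
  refine ⟨hcount, ?_⟩
  have h1 : ∑' P, y P ≤ Real.log (idealZeta K s) :=
    (hysum.tsum_le_tsum hyL hL.summable).trans hL.tsum_eq.le
  have h2 : Real.log (idealZeta K s) - ∑' P, y P ≤
      2 * ∑' P : HeightOneSpectrum (𝓞 K), ((baseP K P : ℝ) ^ 2)⁻¹ := by
    rw [← hL.tsum_eq, ← hL.summable.tsum_sub hysum, ← tsum_mul_left]
    exact (hL.summable.sub hysum).tsum_le_tsum hdiff ((summable_baseP_sq K).mul_left 2)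
  have h3 := abs_le.1 hs.2.2
  have h4 : 0 ≤ ∑' P : HeightOneSpectrum (𝓞 K), ((baseP K P : ℝ) ^ 2)⁻¹ :=
    tsum_nonneg fun P => by positivity
  rw [htsum, abs_le]
  exact ⟨by linarith, by linarith⟩

end FLTAgent.Density
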