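import Fermat.Agent.Density.Euler
import Mathlib.RingTheory.Invariant.Basic
import Mathlib.RingTheory.Frobenius
import Mathlib.FieldTheory.Galois.Basic
import Mathlib.LinearAlgebra.FreeModule.IdealQuotient
import Mathlib.FieldTheory.Finite.Extension
import Mathlib.NumberTheory.NumberField.Basic

/-!
# Degree one primes of a fixed field in terms of Frobenius elements

For `L/ℚ` finite Galois with group `G`, a prime `p` with trivial inertia, `Q` above `p` with
Frobenius `g`, and `H ≤ G`: `#H * #{primes of L^H of norm p} = #{x ∈ G | x g x⁻¹ ∈ H}`.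
-/

set_option autoImplicit false

open IsDedekindDomain NumberField
open scoped Pointwise

namespace FLTAgent.Density

variable {L : Type*} [Field L] [NumberField L]

local notation "G" => (L ≃ₐ[ℚ] L)

/-- `g` is a Frobenius element at `Q` (residue characteristic `p`). -/
def IsFrobMod (p : ℕ) (g : G) (Q : Ideal (𝓞 L)) : Prop :=
  ∀ x : 𝓞 L, g • x - x ^ p ∈ Q

theorem exists_sameInertia_witness (τ : G) (hτ : τ ≠ 1) :
    ∃ x : 𝓞 L, τ • x - x ≠ 0 := by
  by_contra h
  push Not at h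
  refine hτ (AlgEquiv.ext fun y => ?_)
  obtain ⟨a, b, hb, rfl⟩ := IsFractionRing.div_surjective (A := 𝓞 L) y
  have ha : τ (a : L) = a := congrArg Subtype.val (sub_eq_zero.1 (h a))
  have hb' : τ (b : L) = b := congrArg Subtype.val (sub_eq_zero.1 (h b))
  show τ ((a : L) / (b : L)) = _
  rw [map_div₀, ha, hb']
  rfl

/-- An element of `𝓞 L` lying in every prime with nontrivial inertia. -/
noncomputable def inertiaBound (L : Type*) [Field L] [NumberField L] : 𝓞 L :=
  haveI := Classical.decEq (L ≃ₐ[ℚ] L)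
  ∏ τ : {τ : L ≃ₐ[ℚ] L // τ ≠ 1},
    (τ.1 • (exists_sameInertia_witness τ.1 τ.2).choose - (exists_sameInertia_witness τ.1 τ.2).choose)

/-- A nonzero integer divisible by every prime with nontrivial inertia in `L`. -/
noncomputable def badNat (L : Type*) [Field L] [NumberField L] : ℕ :=
  Ideal.absNorm (Ideal.span {inertiaBound L})

theorem inertiaBound_ne_zero : inertiaBound L ≠ 0 :=
  Finset.prod_ne_zero_iff.2 fun τ _ => (exists_sameInertia_witness τ.1 τ.2).choose_spec

theorem badNat_ne_zero : badNat L ≠ 0 := by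
  rw [badNat, Ne, Ideal.absNorm_eq_zero_iff, Ideal.span_singleton_eq_bot]
  exact inertiaBound_ne_zero

theorem eq_one_of_forall_sub_mem {Q : Ideal (𝓞 L)} [Q.IsMaximal]
    {p : ℕ} (hp : p.Prime) (hpQ : (p : 𝓞 L) ∈ Q) (hbad : ¬ p ∣ badNat L)
    {τ : G} (h : ∀ x : 𝓞 L, τ • x - x ∈ Q) : τ = 1 := by
  classical
  by_contra hτ
  have hmem : inertiaBound L ∈ Q := by
    unfold inertiaBound
    exact Ideal.mem_of_dvd _ (Finset.dvd_prod_of_mem _ (Finset.mem_univ (⟨τ, hτ⟩ : {τ : G // τ ≠ 1})))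
      (h _)
  obtain ⟨q, n, hn, hqQ, hq, hN⟩ := Ideal.exists_prime_and_absNorm_eq_pow Q
  have hqp : q = p := by
    by_contra hne
    have := Int.gcd_eq_gcd_ab (q : ℤ) (p : ℤ)
    rw [Int.gcd_natCast_natCast, (Nat.coprime_primes hq hp).2 hne] at this
    have h1 : (1 : 𝓞 L) ∈ Q := by
      have h2 := congrArg (fun z : ℤ => (z : 𝓞 L)) this
      simp only [Nat.cast_one, Int.cast_one, Int.cast_add, Int.cast_mul, Int.cast_natCast] at h2
      rw [h2]
      exact add_mem (Ideal.mul_mem_right _ _ hqQ) (Ideal.mul_mem_right _ _ hpQ)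
    exact Ideal.IsMaximal.ne_top ‹_› ((Ideal.eq_top_iff_one Q).2 h1)
  refine hbad (dvd_trans ?_ (map_dvd Ideal.absNorm
    (Ideal.dvd_iff_le.2 ((Ideal.span_singleton_le_iff_mem Q).2 hmem))))
  rw [hN, hqp]
  exact dvd_pow_self p hn.ne'

theorem exists_absNorm_eq_pow_of_natCast_mem {K : Type*} [Field K] [NumberField K]
    {p : ℕ} (hp : p.Prime) {P : Ideal (𝓞 K)} [P.IsMaximal] (hpP : (p : 𝓞 K) ∈ P) :
    ∃ n, 0 < n ∧ Ideal.absNorm P = p ^ n := by
  obtain ⟨q, n, hn, hqP, hq, hN⟩ := Ideal.exists_prime_and_absNorm_eq_pow P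
  obtain rfl : q = p := by
    by_contra hne
    have := Int.gcd_eq_gcd_ab (q : ℤ) (p : ℤ)
    rw [Int.gcd_natCast_natCast, (Nat.coprime_primes hq hp).2 hne] at this
    have h1 : (1 : 𝓞 K) ∈ P := by
      have h2 := congrArg (fun z : ℤ => (z : 𝓞 K)) this
      simp only [Nat.cast_one, Int.cast_one, Int.cast_add, Int.cast_mul, Int.cast_natCast] at h2
      rw [h2]
      exact add_mem (Ideal.mul_mem_right _ _ hqP) (Ideal.mul_mem_right _ _ hpP)
    exact Ideal.IsMaximal.ne_top ‹_› ((Ideal.eq_top_iff_one P).2 h1)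
  exact ⟨n, hn, hN⟩

section Galois

variable {p : ℕ} {Q : Ideal (𝓞 L)} [Q.IsMaximal] {g : L ≃ₐ[ℚ] L}

theorem IsFrobMod.conj {Q : Ideal (𝓞 L)} (h : IsFrobMod p g Q) (x : G) :
    IsFrobMod p (x * g * x⁻¹) (x • Q) := by
  intro y
  rw [Ideal.mem_pointwise_smul_iff_inv_smul_mem, smul_sub, smul_pow']
  simpa [mul_smul] using h (x⁻¹ • y)

theorem IsFrobMod.smul_eq (hp : p.Prime) (h : IsFrobMod p g Q) : g • Q = Q := by
  have hne : g⁻¹ • Q ≠ ⊤ :=
    (Ideal.map_isMaximal_of_equiv (MulSemiringAction.toRingEquiv (L ≃ₐ[ℚ] L) (𝓞 L) g⁻¹)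
      (p := Q)).ne_top
  have h1 : Q ≤ g⁻¹ • Q := fun y hy => by
    rw [Ideal.mem_pointwise_smul_iff_inv_smul_mem, inv_inv]
    simpa using add_mem (h y) (Q.pow_mem_of_mem hy p hp.pos)
  conv_lhs => rw [Ideal.IsMaximal.eq_of_le ‹Q.IsMaximal› hne h1]
  rw [smul_inv_smul]

theorem IsFrobMod.eq (hp : p.Prime) (hpQ : (p : 𝓞 L) ∈ Q) (hbad : ¬ p ∣ badNat L)
    {g' : G} (h : IsFrobMod p g Q) (h' : IsFrobMod p g' Q) : g = g' := by
  have : g'⁻¹ * g = 1 := eq_one_of_forall_sub_mem hp hpQ hbad fun x => by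
    have h1 : g • x - g' • x ∈ Q := by simpa using sub_mem (h x) (h' x)
    rw [← h'.smul_eq hp, Ideal.mem_pointwise_smul_iff_inv_smul_mem] at h1
    simpa [smul_sub, mul_smul] using h1
  rw [inv_mul_eq_one] at this
  exact this.symm

theorem IsFrobMod.pow (hp : p.Prime) (h : IsFrobMod p g Q) (n : ℕ) (x : 𝓞 L) :
    g ^ n • x - x ^ p ^ n ∈ Q := by
  induction n generalizing x with
  | zero => simp
  | succ n ih =>
    have h1 : g • (g ^ n • x - x ^ p ^ n) ∈ Q := by
      have := Ideal.smul_mem_pointwise_smul g _ _ (ih x)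
      rwa [h.smul_eq hp] at this
    have h2 := add_mem h1 (h (x ^ p ^ n))
    rw [smul_sub, sub_add_sub_cancel, ← mul_smul, ← pow_succ', ← pow_mul, ← pow_succ] at h2
    exact h2

attribute [local instance] Ideal.Quotient.field in
theorem exists_pow_eq_of_smul_eq (hp : p.Prime) (hpQ : (p : 𝓞 L) ∈ Q) (hbad : ¬ p ∣ badNat L)
    (h : IsFrobMod p g Q) {τ : G} (hτ : τ • Q = Q) : ∃ n : ℕ, τ = g ^ n := by
  have : Fact p.Prime := ⟨hp⟩
  have : CharP (𝓞 L ⧸ Q) p := by
    rw [CharP.charP_iff_prime_eq_zero hp]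
    rw [← map_natCast (Ideal.Quotient.mk Q)]
    exact Ideal.Quotient.eq_zero_iff_mem.2 hpQ
  let : Algebra (ZMod p) (𝓞 L ⧸ Q) := ZMod.algebra _ p
  have : Finite (𝓞 L ⧸ Q) := Ideal.finiteQuotientOfFreeOfNeBot Q
    (Ideal.IsMaximal.ne_bot_of_isIntegral_int Q)
  let e : (𝓞 L ⧸ Q) ≃+* (𝓞 L ⧸ Q) :=
    Ideal.quotientEquiv Q Q (MulSemiringAction.toRingEquiv G (𝓞 L) τ) hτ.symm
  let φ : (𝓞 L ⧸ Q) ≃ₐ[ZMod p] (𝓞 L ⧸ Q) :=
    AlgEquiv.ofRingEquiv (f := e) fun x =>
      DFunLike.congr_fun (RingHom.ext_zmod (e.toRingHom.comp (algebraMap (ZMod p) _))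
        (algebraMap (ZMod p) _)) x
  obtain ⟨n, hn⟩ := FiniteField.exists_forall_apply_eq_pow (ZMod p) p (𝓞 L ⧸ Q) φ
  refine ⟨n, ?_⟩
  have key : (g ^ n)⁻¹ * τ = 1 := eq_one_of_forall_sub_mem hp hpQ hbad fun x => by
    have h1 : τ • x - x ^ p ^ n ∈ Q := by
      rw [← Ideal.Quotient.eq]
      have := hn (Ideal.Quotient.mk Q x)
      simpa [φ, e, Nat.card_zmod] using this
    have h2 : τ • x - g ^ n • x ∈ Q := by simpa using sub_mem h1 (h.pow hp n x)
    have hgn : g ^ n • Q = Q := MulAction.mem_stabilizer_iff.1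
      (pow_mem (MulAction.mem_stabilizer_iff.2 (h.smul_eq hp)) n)
    rw [← hgn, Ideal.mem_pointwise_smul_iff_inv_smul_mem] at h2
    simpa [smul_sub, mul_smul] using h2
  exact (inv_mul_eq_one.1 key).symm

variable (H : Subgroup (L ≃ₐ[ℚ] L))

theorem smulCommClass_fixedField :
    SMulCommClass H (𝓞 (IntermediateField.fixedField H)) (𝓞 L) := by
  refine ⟨fun h a x => ?_⟩
  rw [Algebra.smul_def, Algebra.smul_def, smul_mul']
  congr 1
  apply Subtype.ext
  exact (a : IntermediateField.fixedField H).2 h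

theorem isInvariant_fixedField :
    Algebra.IsInvariant (𝓞 (IntermediateField.fixedField H)) (𝓞 L) H := by
  refine ⟨fun x hx => ?_⟩
  have hmem : (x : L) ∈ IntermediateField.fixedField H := fun h =>
    congrArg Subtype.val (hx h)
  refine ⟨⟨⟨(x : L), hmem⟩, ?_⟩, rfl⟩
  exact (isIntegral_algHom_iff (((IntermediateField.fixedField H).val).restrictScalars ℤ)
    (Subtype.val_injective)).1 x.2

/-- The degree one count of the fixed field of `H`, in terms of a Frobenius element. -/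
theorem card_mul_degOneCount [IsGalois ℚ L] (hp : p.Prime) (hpQ : (p : 𝓞 L) ∈ Q)
    (hbad : ¬ p ∣ badNat L) (hg : IsFrobMod p g Q) :
    Nat.card H * degOneCount (IntermediateField.fixedField H) p =
      Nat.card {x : G // x * g * x⁻¹ ∈ H} := by
  have := smulCommClass_fixedField H
  have := isInvariant_fixedField H
  have : Finite G := inferInstance
  have hmax : ∀ x : G, (x • Q).IsMaximal := fun x => Ideal.map_isMaximal_of_equiv
    (MulSemiringAction.toRingEquiv G (𝓞 L) x)
  have hpx : ∀ x : G, (p : 𝓞 L) ∈ x • Q := fun x => by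
    rw [Ideal.mem_pointwise_smul_iff_inv_smul_mem]
    have : x⁻¹ • (p : 𝓞 L) = p := map_natCast (MulSemiringAction.toRingHom G (𝓞 L) x⁻¹) p
    rwa [this]
  have hnb : ∀ x : G, (x • Q).under (𝓞 (IntermediateField.fixedField H)) ≠ ⊥ := fun x hb => by
    have : (p : 𝓞 (IntermediateField.fixedField H)) = 0 := by
      rw [← Ideal.mem_bot, ← hb, Ideal.under_def, Ideal.mem_comap, map_natCast]
      exact hpx x
    exact hp.ne_zero (Nat.cast_eq_zero.1 this)
  have hPmax : ∀ x : G, ((x • Q).under (𝓞 (IntermediateField.fixedField H))).IsMaximal := fun x =>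
    haveI := hmax x
    haveI : Algebra.IsIntegral (𝓞 (IntermediateField.fixedField H)) (𝓞 L) :=
      Algebra.IsInvariant.isIntegral _ _ H
    inferInstance
  -- degree one for conjugates landing in `H`
  have hdeg : ∀ x : {x : G // x * g * x⁻¹ ∈ H},
      Ideal.absNorm ((x.1 • Q).under (𝓞 (IntermediateField.fixedField H))) = p := by
    intro x
    have := hPmax x.1
    let := Ideal.Quotient.field ((x.1 • Q).under (𝓞 (IntermediateField.fixedField H)))
    obtain ⟨n, hn, hN⟩ := exists_absNorm_eq_pow_of_natCast_mem (K := IntermediateField.fixedField H)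
      hp (P := (x.1 • Q).under (𝓞 (IntermediateField.fixedField H))) (by
        rw [Ideal.under_def, Ideal.mem_comap, map_natCast]
        exact hpx x.1)
    refine le_antisymm ?_ (hN ▸ Nat.le_self_pow hn.ne' p)
    have hcard : Ideal.absNorm ((x.1 • Q).under (𝓞 (IntermediateField.fixedField H))) =
        Nat.card (𝓞 (IntermediateField.fixedField H) ⧸
          (x.1 • Q).under (𝓞 (IntermediateField.fixedField H))) := by
      rw [Ideal.absNorm_apply, Submodule.cardQuot_apply]
    rw [hcard]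
    have hfin : Finite (𝓞 (IntermediateField.fixedField H) ⧸
        (x.1 • Q).under (𝓞 (IntermediateField.fixedField H))) := by
      apply Nat.finite_of_card_ne_zero
      rw [← hcard, hN]
      exact pow_ne_zero _ hp.ne_zero
    have := Fintype.ofFinite (𝓞 (IntermediateField.fixedField H) ⧸
        (x.1 • Q).under (𝓞 (IntermediateField.fixedField H)))
    rw [Nat.card_eq_fintype_card]
    refine (Polynomial.card_le_degree_of_subset_roots
      (p := (Polynomial.X ^ p - Polynomial.X :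
        Polynomial (𝓞 (IntermediateField.fixedField H) ⧸
          (x.1 • Q).under (𝓞 (IntermediateField.fixedField H))))) ?_).trans_eq
      (FiniteField.X_pow_card_sub_X_natDegree_eq _ hp.one_lt)
    intro y _
    rw [Polynomial.mem_roots (FiniteField.X_pow_card_sub_X_ne_zero _ hp.one_lt)]
    obtain ⟨a, rfl⟩ := Ideal.Quotient.mk_surjective y
    simp only [Polynomial.IsRoot.def, Polynomial.eval_sub, Polynomial.eval_pow, Polynomial.eval_X]
    rw [← map_pow, ← map_sub, Ideal.Quotient.eq_zero_iff_mem, Ideal.under_def, Ideal.mem_comap,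
      map_sub, map_pow]
    have hfix : (x.1 * g * x.1⁻¹) • algebraMap _ (𝓞 L) a = algebraMap _ (𝓞 L) a :=
      Subtype.ext ((a : IntermediateField.fixedField H).2 ⟨_, x.2⟩)
    have := (hg.conj x.1) (algebraMap _ (𝓞 L) a)
    rw [hfix] at this
    simpa [neg_sub] using neg_mem this
  let f : {x : G // x * g * x⁻¹ ∈ H} → {P : HeightOneSpectrum (𝓞 (IntermediateField.fixedField H)) //
      Ideal.absNorm P.asIdeal = p} := fun x =>
    ⟨⟨(x.1 • Q).under (𝓞 (IntermediateField.fixedField H)), (hPmax x.1).isPrime, hnb x.1⟩, hdeg x⟩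
  have hsurj : Function.Surjective f := by
    intro P
    have := P.1.isMaximal
    have : Algebra.IsIntegral (𝓞 (IntermediateField.fixedField H)) (𝓞 L) :=
      Algebra.IsInvariant.isIntegral _ _ H
    obtain ⟨Q', hQ'max, hQ'⟩ := Ideal.exists_ideal_over_maximal_of_isIntegral (S := 𝓞 L) P.1.asIdeal
      (fun a ha => by
        rw [RingHom.mem_ker, map_eq_zero_iff _ (FaithfulSMul.algebraMap_injective _ _)] at ha
        rw [ha]; exact zero_mem _)
    have hpP : (p : 𝓞 (IntermediateField.fixedField H)) ∈ P.1.asIdeal := by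
      have := Ideal.absNorm_mem P.1.asIdeal
      rwa [P.2] at this
    have hpQ' : (p : 𝓞 L) ∈ Q' := by
      rw [← map_natCast (algebraMap (𝓞 (IntermediateField.fixedField H)) (𝓞 L))]
      rw [← hQ', Ideal.mem_comap] at hpP
      exact hpP
    have hspan : (Ideal.span {(p : ℤ)}).IsMaximal :=
      ((Ideal.span_singleton_prime (by exact_mod_cast hp.ne_zero)).2
        (Nat.prime_iff_prime_int.1 hp)).isMaximal (by simpa using hp.ne_zero)
    have hu : ∀ (J : Ideal (𝓞 L)), J.IsMaximal → (p : 𝓞 L) ∈ J →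
        J.under ℤ = Ideal.span {(p : ℤ)} := fun J hJ hpJ =>
      (hspan.eq_of_le (Ideal.comap_ne_top _ hJ.ne_top) (by
        rw [Ideal.span_singleton_le_iff_mem, Ideal.mem_comap, map_natCast]; exact hpJ)).symm
    obtain ⟨x, hx⟩ := Algebra.IsInvariant.exists_smul_of_under_eq ℤ (𝓞 L) G Q Q'
      ((hu Q ‹_› hpQ).trans (hu Q' hQ'max hpQ').symm)
    have := hmax x
    have : Finite (𝓞 L ⧸ x • Q) := Ideal.finiteQuotientOfFreeOfNeBot (x • Q)
      (Ideal.IsMaximal.ne_bot_of_isIntegral_int (x • Q))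
    obtain ⟨τ, hτ⟩ := IsArithFrobAt.exists_of_isInvariant
      (𝓞 (IntermediateField.fixedField H)) H (x • Q)
    have hcard : Nat.card (𝓞 (IntermediateField.fixedField H) ⧸
        (x • Q).under (𝓞 (IntermediateField.fixedField H))) = p := by
      rw [← hx]
      conv_rhs => rw [← P.2, ← hQ', Ideal.absNorm_apply, Submodule.cardQuot_apply]
    have hτ' : IsFrobMod p (τ : G) (x • Q) := fun y => by
      have := hτ y
      rw [hcard] at this
      exact this
    have hmemH : x * g * x⁻¹ ∈ H := by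
      rw [(hg.conj x).eq hp (hpx x) hbad hτ']
      exact τ.2
    exact ⟨⟨x, hmemH⟩, Subtype.ext (HeightOneSpectrum.ext (by rw [← hQ', hx]))⟩
  obtain ⟨r, hr⟩ := hsurj.hasRightInverse
  have hHf : ∀ (h : H) (x : {x : G // x * g * x⁻¹ ∈ H}), ((h : G) * x.1) * g * ((h : G) * x.1)⁻¹ ∈ H := by
    intro h x
    rw [show (h : G) * x.1 * g * ((h : G) * x.1)⁻¹ = h * (x.1 * g * x.1⁻¹) * (h : G)⁻¹ by group]
    exact mul_mem (mul_mem h.2 x.2) (inv_mem h.2)
  have hunder : ∀ (h : H) (J : Ideal (𝓞 L)),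
      ((h : G) • J).under (𝓞 (IntermediateField.fixedField H)) =
        J.under (𝓞 (IntermediateField.fixedField H)) := fun h J => by
    ext a
    rw [Ideal.under_def, Ideal.mem_comap, Ideal.mem_comap,
      Ideal.mem_pointwise_smul_iff_inv_smul_mem]
    have : (h : G)⁻¹ • algebraMap _ (𝓞 L) a = algebraMap _ (𝓞 L) a :=
      Subtype.ext ((a : IntermediateField.fixedField H).2 h⁻¹)
    rw [this]
  let F : H × {P : HeightOneSpectrum (𝓞 (IntermediateField.fixedField H)) //
      Ideal.absNorm P.asIdeal = p} → {x : G // x * g * x⁻¹ ∈ H} := fun y =>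
    ⟨(y.1 : G) * (r y.2).1, hHf y.1 (r y.2)⟩
  have hfF : ∀ y, f (F y) = y.2 := fun y => by
    conv_rhs => rw [← hr y.2]
    refine Subtype.ext (HeightOneSpectrum.ext ?_)
    show (((y.1 : G) * (r y.2).1) • Q).under _ = _
    rw [mul_smul, hunder]
  have hF : Function.Bijective F := by
    constructor
    · intro a b hab
      have h2 : a.2 = b.2 := by rw [← hfF a, ← hfF b, hab]
      have h1 := congrArg Subtype.val hab
      simp only [F, h2, mul_left_inj, SetLike.coe_eq_coe] at h1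
      exact Prod.ext h1 h2
    · intro x
      have hfr : f (r (f x)) = f x := hr (f x)
      have := hmax (r (f x)).1
      have := hmax x.1
      obtain ⟨h, hh⟩ := Algebra.IsInvariant.exists_smul_of_under_eq
        (𝓞 (IntermediateField.fixedField H)) (𝓞 L) H ((r (f x)).1 • Q) (x.1 • Q)
        (congrArg (fun P => P.1.asIdeal) hfr)
      have hh' : x.1 • Q = ((h : G) * (r (f x)).1) • Q := by
        rw [mul_smul]; exact hh
      obtain ⟨n, hn⟩ := exists_pow_eq_of_smul_eq hp hpQ hbad hg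
        (τ := ((h : G) * (r (f x)).1)⁻¹ * x.1) (by rw [mul_smul, hh', inv_smul_smul])
      set r0 := r (f x)
      have hk : r0.1 * g ^ n * r0.1⁻¹ ∈ H := by
        rw [← conj_pow]
        exact pow_mem r0.2 n
      refine ⟨⟨h * ⟨_, hk⟩, f x⟩, Subtype.ext ?_⟩
      show (h : G) * (r0.1 * g ^ n * r0.1⁻¹) * r0.1 = x.1
      rw [inv_mul_eq_iff_eq_mul] at hn
      rw [hn]
      group
  rw [degOneCount, ← Nat.card_prod]
  exact Nat.card_congr (Equiv.ofBijective F hF)

end Galois

end FLTAgent.Density
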