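import Fermat.Agent.Density.Count
import Mathlib.NumberTheory.ArithmeticFunction.Moebius
import Mathlib.GroupTheory.SpecificGroups.Cyclic

/-!
# A rational prime whose Frobenius class meets the division of a given element

The Möbius combination `∑_{e ∣ c} μ(e) (c/e) [xgx⁻¹ ∈ ⟨σ^e⟩]` detects conjugates of `g` among the
generators of `⟨σ⟩`, while the same combination of `log ζ` diverges like `φ(c) log (1/(s-1))`.
-/

set_option autoImplicit false

open IsDedekindDomain NumberField ArithmeticFunction Filter Topology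
open scoped Pointwise ArithmeticFunction.Moebius ArithmeticFunction.zeta

namespace FLTAgent.Density

theorem sum_moebius_divisors (n : ℕ) :
    ∑ e ∈ n.divisors, μ e = if n = 1 then 1 else 0 := by
  rw [← coe_mul_zeta_apply, moebius_mul_coe_zeta, one_apply]

theorem sum_moebius_mul_div_eq_totient {c : ℕ} (hc : c ≠ 0) :
    ∑ e ∈ c.divisors, μ e * ((c / e : ℕ) : ℤ) = (c.totient : ℤ) := by
  have h := (sum_eq_iff_sum_mul_moebius_eq (R := ℤ) (f := fun n => (n.totient : ℤ))
    (g := fun n => (n : ℤ))).1 (fun n _ => by exact_mod_cast Nat.sum_totient n) c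
    (Nat.pos_of_ne_zero hc)
  rw [← h]
  simp only [Int.cast_id]
  exact (Nat.sum_divisorsAntidiagonal (fun i j => μ i * (j : ℤ))).symm

variable {Γ : Type*} [Group Γ]

/-- Conjugates of `g` which lie in `⟨σ⟩` but are not generators cancel in the Möbius sum. -/
theorem sum_moebius_card_conj_eq_zero [Finite Γ] {σ g : Γ}
    (h : ∀ x : Γ, ∀ k : ℕ, k.Coprime (orderOf σ) → x * g * x⁻¹ ≠ σ ^ k) :
    ∑ e ∈ (orderOf σ).divisors,
      μ e * (Nat.card {x : Γ // x * g * x⁻¹ ∈ Subgroup.zpowers (σ ^ e)} : ℤ) = 0 := by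
  classical
  have := Fintype.ofFinite Γ
  have hc : orderOf σ ≠ 0 := (orderOf_pos σ).ne'
  simp only [Nat.card_eq_fintype_card, Fintype.card_subtype, Finset.card_filter, Nat.cast_sum,
    Nat.cast_ite, Nat.cast_one, Nat.cast_zero, Finset.mul_sum]
  rw [Finset.sum_comm]
  refine Finset.sum_eq_zero fun x _ => ?_
  simp only [mul_ite, mul_one, mul_zero]
  by_cases hx : x * g * x⁻¹ ∈ Subgroup.zpowers σ
  · obtain ⟨i, hi⟩ := (Submonoid.mem_powers_iff _ _).1
      ((isOfFinOrder_of_finite σ).mem_powers_iff_mem_zpowers.2 hx)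
    have key : ∀ e ∈ (orderOf σ).divisors,
        (x * g * x⁻¹ ∈ Subgroup.zpowers (σ ^ e) ↔ e ∣ i) := by
      intro e he
      rw [← hi]
      constructor
      · intro hm
        obtain ⟨j, hj⟩ := Subgroup.mem_zpowers_iff.1 hm
        rw [← zpow_natCast σ e, ← zpow_mul, ← zpow_natCast σ i, zpow_eq_zpow_iff_modEq] at hj
        have h1 : (e : ℤ) ∣ (orderOf σ : ℤ) := by exact_mod_cast Nat.dvd_of_mem_divisors he
        have h2 : (e : ℤ) ∣ (i : ℤ) - e * j := h1.trans hj.dvd
        have h3 : (e : ℤ) ∣ (i : ℤ) := by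
          have := dvd_add h2 (dvd_mul_right (e : ℤ) j)
          rwa [sub_add_cancel] at this
        exact_mod_cast h3
      · rintro ⟨j, rfl⟩
        rw [pow_mul]
        exact pow_mem (Subgroup.mem_zpowers _) j
    rw [← Finset.sum_filter, Finset.filter_congr key,
      show (orderOf σ).divisors.filter (fun e => e ∣ i) = ((orderOf σ).gcd i).divisors from ?_,
      sum_moebius_divisors, if_neg]
    · intro hg1
      exact h x i (Nat.coprime_comm.1 hg1) hi.symm
    · ext e
      simp only [Finset.mem_filter, Nat.mem_divisors, Nat.dvd_gcd_iff, hc, ne_eq, not_false_eq_true,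
        and_true, Nat.gcd_eq_zero_iff, false_and]
  · refine Finset.sum_eq_zero fun e _ => if_neg fun hm => hx ?_
    exact Subgroup.zpowers_le.2 (pow_mem (Subgroup.mem_zpowers σ) e) hm

variable (L : Type*) [Field L] [NumberField L] [IsGalois ℚ L]

/-- There is a prime `p ∉ S`, unramified in `L`, all of whose Frobenius elements are conjugate
to generators of `⟨σ⟩`. -/
theorem exists_prime_frobMod_conj_eq_pow (σ : L ≃ₐ[ℚ] L) (S : Finset ℕ) :
    ∃ p : ℕ, p.Prime ∧ p ∉ S ∧ ¬ p ∣ badNat L ∧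
      ∀ (Q : Ideal (𝓞 L)), Q.IsMaximal → (p : 𝓞 L) ∈ Q → ∀ g : L ≃ₐ[ℚ] L, IsFrobMod p g Q →
        ∃ (x : L ≃ₐ[ℚ] L) (k : ℕ), k.Coprime (orderOf σ) ∧ x * g * x⁻¹ = σ ^ k := by
  classical
  by_contra hcon
  push Not at hcon
  set c := orderOf σ with hc
  have hc0 : c ≠ 0 := (orderOf_pos σ).ne'
  let E : ℕ → IntermediateField ℚ L := fun e =>
    IntermediateField.fixedField (Subgroup.zpowers (σ ^ e))
  let a : ℕ → ℝ := fun e => (μ e : ℝ) * ((c / e : ℕ) : ℝ)
  let T : Finset Nat.Primes :=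
    (S ∪ (badNat L).primeFactors).subtype Nat.Prime
  let W : Nat.Primes → ℝ := fun p => ∑ e ∈ c.divisors, a e * (degOneCount (E e) p : ℝ)
  have hW : ∀ p, p ∉ T → W p = 0 := by
    intro p hp
    have hp1 : (p : ℕ) ∉ S ∪ (badNat L).primeFactors := fun h => hp (Finset.mem_subtype.2 h)
    rw [Finset.notMem_union] at hp1
    have hbad : ¬ (p : ℕ) ∣ badNat L := fun h =>
      hp1.2 (Nat.mem_primeFactors.2 ⟨p.2, h, badNat_ne_zero⟩)
    obtain ⟨Q, hQ, hpQ, g, hg, hno⟩ := hcon p p.2 hp1.1 hbad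
    have key : ∀ e ∈ c.divisors, a e * (degOneCount (E e) p : ℝ) =
        ((μ e * (Nat.card {x : L ≃ₐ[ℚ] L // x * g * x⁻¹ ∈ Subgroup.zpowers (σ ^ e)} : ℤ) : ℤ) :
          ℝ) := by
      intro e he
      rw [← card_mul_degOneCount (Subgroup.zpowers (σ ^ e)) p.2 hpQ hbad hg, Nat.card_zpowers,
        orderOf_pow_of_dvd (Nat.pos_of_mem_divisors he).ne' (Nat.dvd_of_mem_divisors he)]
      simp only [a, E, ← hc, Nat.cast_mul, Int.cast_mul, Int.cast_natCast, mul_assoc]
    show ∑ e ∈ c.divisors, a e * (degOneCount (E e) p : ℝ) = 0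
    rw [Finset.sum_congr rfl key, ← Int.cast_sum,
      sum_moebius_card_conj_eq_zero (σ := σ) (g := g) (fun x k hk => hno x k hk), Int.cast_zero]
  have hphi : ∑ e ∈ c.divisors, a e = (c.totient : ℝ) := by
    have := congrArg (fun z : ℤ => (z : ℝ)) (sum_moebius_mul_div_eq_totient hc0)
    simpa only [a, Int.cast_sum, Int.cast_mul, Int.cast_natCast] using this
  choose C hC using fun e : ℕ => eventually_abs_degOne_sub_log_le (E e)
  set B : ℝ := (∑ p ∈ T, |W p|) + ∑ e ∈ c.divisors, |a e| * C e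
  have hev : ∀ᶠ s : ℝ in 𝓝[>] 1, (c.totient : ℝ) * Real.log (1 / (s - 1)) ≤ B := by
    filter_upwards [(c.divisors.eventually_all).2 fun e _ => hC e, self_mem_nhdsWithin]
      with s hs hs1
    have hs1' : (1 : ℝ) < s := hs1
    have h1 : ∑ e ∈ c.divisors, a e * ∑' p : Nat.Primes, (degOneCount (E e) p : ℝ) * (p : ℝ) ^ (-s) =
        ∑ p ∈ T, W p * (p : ℝ) ^ (-s) := by
      simp only [← tsum_mul_left]
      rw [← Summable.tsum_finsetSum fun e he => (hs e he).1.mul_left (a e)]
      rw [tsum_eq_sum (s := T) fun p hp => by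
        rw [← zero_mul ((p : ℝ) ^ (-s)), ← hW p hp, Finset.sum_mul]
        exact Finset.sum_congr rfl fun e _ => (mul_assoc _ _ _).symm]
      exact Finset.sum_congr rfl fun p _ => by
        rw [Finset.sum_mul]
        exact Finset.sum_congr rfl fun e _ => (mul_assoc _ _ _).symm
    have h2 : ∑ p ∈ T, W p * (p : ℝ) ^ (-s) ≤ ∑ p ∈ T, |W p| := by
      refine Finset.sum_le_sum fun p _ => ?_
      have hp1 : (p : ℝ) ^ (-s) ≤ 1 :=
        Real.rpow_le_one_of_one_le_of_nonpos (by exact_mod_cast p.2.one_lt.le) (by linarith)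
      calc W p * (p : ℝ) ^ (-s) ≤ |W p| * (p : ℝ) ^ (-s) :=
            mul_le_mul_of_nonneg_right (le_abs_self _) (by positivity)
        _ ≤ |W p| := mul_le_of_le_one_right (abs_nonneg _) hp1
    have h3 : (c.totient : ℝ) * Real.log (1 / (s - 1)) - ∑ e ∈ c.divisors,
        a e * ∑' p : Nat.Primes, (degOneCount (E e) p : ℝ) * (p : ℝ) ^ (-s) ≤
        ∑ e ∈ c.divisors, |a e| * C e := by
      rw [← hphi, Finset.sum_mul, ← Finset.sum_sub_distrib]
      refine Finset.sum_le_sum fun e he => ?_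
      rw [← mul_sub]
      refine (le_abs_self _).trans ?_
      rw [abs_mul, abs_sub_comm]
      exact mul_le_mul_of_nonneg_left (hs e he).2 (abs_nonneg _)
    linarith
  have hlim : Tendsto (fun s : ℝ => (c.totient : ℝ) * Real.log (1 / (s - 1))) (𝓝[>] 1) atTop := by
    refine Tendsto.const_mul_atTop (by exact_mod_cast Nat.totient_pos.2 (Nat.pos_of_ne_zero hc0)) ?_
    refine Real.tendsto_log_atTop.comp ?_
    have : Tendsto (fun s : ℝ => s - 1) (𝓝[>] 1) (𝓝[>] 0) := by
      refine tendsto_nhdsWithin_iff.2 ⟨?_, ?_⟩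
      · have h : Tendsto (fun s : ℝ => s - 1) (𝓝 1) (𝓝 (1 - 1)) :=
          (continuous_sub_right (1 : ℝ)).tendsto 1
        rw [sub_self] at h
        exact h.mono_left nhdsWithin_le_nhds
      · filter_upwards [self_mem_nhdsWithin] with s hs
        exact sub_pos.2 (show (1 : ℝ) < s from hs)
    simpa [one_div, Function.comp_def] using tendsto_inv_nhdsGT_zero.comp this
  obtain ⟨s, h1, h2⟩ := (hev.and (hlim.eventually_gt_atTop B)).exists
  linarith

end FLTAgent.Density
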