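import Fermat.Agent.Density.Divergence
import Fermat.Agent.GalCommon.Frobenius
import Mathlib.FieldTheory.Galois.Infinite
import Mathlib.FieldTheory.KrullTopology

/-!
# Frobenius density theorem (weak form, no class field theory)

For a finite Galois `L/ℚ` inside `ℚ̄`, every `σ ∈ Gal(L/ℚ)` and every finite set `S` of primes,
some Frobenius element outside `S` restricts to `σ ^ k` with `k` prime to the order of `σ`.
-/

set_option autoImplicit false

open NumberField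
open scoped Pointwise

namespace FLTAgent.Density

local notation "ℚ̄" => AlgebraicClosure ℚ
local notation "Gℚ" => (AlgebraicClosure ℚ) ≃ₐ[ℚ] (AlgebraicClosure ℚ)

attribute [local instance] GalCommon.normal_Qbar

/-- The ring of integers of `L` inside the algebraic integers of `ℚ̄`. -/
theorem isIntegral_coe (L : IntermediateField ℚ ℚ̄) (y : 𝓞 L) : IsIntegral ℤ ((y : L) : ℚ̄) :=
  map_isIntegral_int L.val y.2

/-- The prime of `L` cut out by a place of `ℚ̄`. -/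
noncomputable def placePrime (L : IntermediateField ℚ ℚ̄) (A : ValuationSubring ℚ̄) :
    Ideal (𝓞 L) :=
  (IsLocalRing.maximalIdeal A).comap
    (((algebraMap L ℚ̄).comp (algebraMap (𝓞 L) L)).codRestrict A.toSubring fun y =>
      GalCommon.mem_of_isIntegral A (isIntegral_coe L y))

theorem mem_placePrime_iff {L : IntermediateField ℚ ℚ̄} {A : ValuationSubring ℚ̄} {y : 𝓞 L} :
    y ∈ placePrime L A ↔ ((y : L) : ℚ̄) ∈ A.nonunits := by
  rw [placePrime, Ideal.mem_comap, ← ValuationSubring.coe_mem_nonunits_iff]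
  rfl

theorem natCast_mem_placePrime {L : IntermediateField ℚ ℚ̄} {A : ValuationSubring ℚ̄} {ℓ : ℕ}
    (hA : A.LiesOverPrime ℓ) : (ℓ : 𝓞 L) ∈ placePrime L A :=
  mem_placePrime_iff.2 (by simpa [ValuationSubring.LiesOverPrime] using hA)

theorem placePrime_isMaximal (L : IntermediateField ℚ ℚ̄) [FiniteDimensional ℚ L]
    {A : ValuationSubring ℚ̄} {ℓ : ℕ} (hℓ : ℓ.Prime) (hA : A.LiesOverPrime ℓ) :
    (placePrime L A).IsMaximal := by
  have : NumberField L := ⟨⟩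
  have hprime : (placePrime L A).IsPrime := Ideal.IsPrime.comap _
  refine hprime.isMaximal fun h => ?_
  have : (ℓ : 𝓞 L) = 0 := by
    rw [← Ideal.mem_bot, ← h]; exact natCast_mem_placePrime hA
  exact hℓ.ne_zero (Nat.cast_eq_zero.1 this)

theorem coe_restrictNormalHom_smul (L : IntermediateField ℚ ℚ̄) [Normal ℚ L] (τ : Gℚ) (y : 𝓞 L) :
    (((AlgEquiv.restrictNormalHom L τ • y : 𝓞 L) : L) : ℚ̄) = τ ((y : L) : ℚ̄) :=
  AlgEquiv.restrictNormal_commutes τ L (y : L)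

/-- **Frobenius density theorem**, weak form. -/
theorem exists_isFrobeniusAt_restrict_eq_pow (L : IntermediateField ℚ ℚ̄) [FiniteDimensional ℚ L]
    [IsGalois ℚ L] (σ : L ≃ₐ[ℚ] L) (S : Finset ℕ) :
    ∃ ℓ : ℕ, ℓ.Prime ∧ ℓ ∉ S ∧
      (∀ A : ValuationSubring ℚ̄, A.LiesOverPrime ℓ →
        ∀ ι ∈ A.inertiaSubgroupIn ℚ, AlgEquiv.restrictNormalHom L ι = 1) ∧
      ∃ A : ValuationSubring ℚ̄, A.LiesOverPrime ℓ ∧ ∃ τ : Gℚ, A.IsFrobeniusAt τ ℓ ∧
        ∃ k : ℕ, k.Coprime (orderOf σ) ∧ AlgEquiv.restrictNormalHom L τ = σ ^ k := by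
  have : NumberField L := ⟨⟩
  obtain ⟨ℓ, hℓ, hS, hbad, hfrob⟩ := exists_prime_frobMod_conj_eq_pow L σ S
  refine ⟨ℓ, hℓ, hS, fun A hA ι hι => ?_, ?_⟩
  · have := placePrime_isMaximal L hℓ hA
    refine eq_one_of_forall_sub_mem hℓ (natCast_mem_placePrime hA) hbad fun y => ?_
    rw [mem_placePrime_iff]
    have := (GalCommon.mem_inertiaSubgroupIn_iff.1 hι).2 _
      (GalCommon.mem_of_isIntegral A (isIntegral_coe L y))
    simpa [coe_restrictNormalHom_smul] using this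
  obtain ⟨A, hA, τ, hτ⟩ := GalCommon.exists_place_frobenius hℓ
  have hg : IsFrobMod ℓ (AlgEquiv.restrictNormalHom L τ) (placePrime L A) := fun y => by
    rw [mem_placePrime_iff]
    have := (GalCommon.isFrobeniusAt_iff.1 hτ).2 _
      (GalCommon.mem_of_isIntegral A (isIntegral_coe L y))
    simpa [coe_restrictNormalHom_smul] using this
  obtain ⟨x, k, hk, hx⟩ := hfrob _ (placePrime_isMaximal L hℓ hA) (natCast_mem_placePrime hA) _ hg
  have := GalCommon.normal_Qbar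
  obtain ⟨x', rfl⟩ := AlgEquiv.restrictNormalHom_surjective ℚ̄ x
  exact ⟨x' • A, GalCommon.liesOverPrime_smul hA, x' * τ * x'⁻¹,
    GalCommon.isFrobeniusAt_conj hτ x', k, hk, by rw [map_mul, map_mul, map_inv, hx]⟩

/-- An open subgroup of `Gℚ` contains the fixing subgroup of a finite Galois extension of `ℚ`. -/
theorem exists_finite_galois_fixingSubgroup_le (U : Subgroup Gℚ)
    (hU : IsOpen (U : Set Gℚ)) :
    ∃ L : IntermediateField ℚ ℚ̄, FiniteDimensional ℚ L ∧ IsGalois ℚ L ∧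
      L.fixingSubgroup ≤ U := by
  have h1 : (U : Set Gℚ) ∈ nhds 1 := hU.mem_nhds (one_mem U)
  obtain ⟨L, hfin, hN, hsub⟩ := (krullTopology_mem_nhds_one_iff_of_normal ℚ ℚ̄ _).1 h1
  exact ⟨L, hfin, @IsGalois.mk _ _ _ _ _ inferInstance hN, hsub⟩

theorem inv_mul_mem_fixingSubgroup_of_restrict_eq {L : IntermediateField ℚ ℚ̄} [Normal ℚ L]
    {x y : Gℚ} (h : AlgEquiv.restrictNormalHom L x = AlgEquiv.restrictNormalHom L y) :
    x⁻¹ * y ∈ L.fixingSubgroup := by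
  rw [IntermediateField.mem_fixingSubgroup_iff]
  intro z hz
  have hx : ((AlgEquiv.restrictNormalHom L x ⟨z, hz⟩ : L) : ℚ̄) = x z :=
    AlgEquiv.restrictNormal_commutes x L ⟨z, hz⟩
  have hy : ((AlgEquiv.restrictNormalHom L y ⟨z, hz⟩ : L) : ℚ̄) = y z :=
    AlgEquiv.restrictNormal_commutes y L ⟨z, hz⟩
  have hz' : x z = y z := by rw [← hx, ← hy, h]
  rw [AlgEquiv.mul_apply, ← hz', AlgEquiv.aut_inv, AlgEquiv.symm_apply_apply]

theorem mem_fixingSubgroup_of_restrict_eq_one {L : IntermediateField ℚ ℚ̄} [Normal ℚ L]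
    {x : Gℚ} (h : AlgEquiv.restrictNormalHom L x = 1) : x ∈ L.fixingSubgroup := by
  have := inv_mul_mem_fixingSubgroup_of_restrict_eq (L := L) (x := 1) (y := x)
    (by rw [map_one, h])
  simpa using this

/-- Frobenius density for an open normal subgroup `U` of `Gℚ`: some Frobenius outside `S` lies in
`g ^ k U` with `k` prime to the order of `g` mod `U`. -/
theorem exists_isFrobeniusAt_mem_pow_coset (U : Subgroup Gℚ)
    (hU : IsOpen (U : Set Gℚ)) [U.Normal] (g : Gℚ) (S : Finset ℕ) :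
    ∃ ℓ : ℕ, ℓ.Prime ∧ ℓ ∉ S ∧
      (∀ A : ValuationSubring ℚ̄, A.LiesOverPrime ℓ → A.inertiaSubgroupIn ℚ ≤ U) ∧
      ∃ A : ValuationSubring ℚ̄, A.LiesOverPrime ℓ ∧ ∃ τ : Gℚ, A.IsFrobeniusAt τ ℓ ∧
        ∃ k : ℕ, k.Coprime (orderOf (g : Gℚ ⧸ U)) ∧ (g ^ k)⁻¹ * τ ∈ U := by
  obtain ⟨L, hfin, hgal, hLU⟩ := exists_finite_galois_fixingSubgroup_le U hU
  obtain ⟨ℓ, hℓ, hS, hI, A, hA, τ, hτ, k, hk, hres⟩ :=
    exists_isFrobeniusAt_restrict_eq_pow L (AlgEquiv.restrictNormalHom L g) S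
  refine ⟨ℓ, hℓ, hS, fun A' hA' ι hι => ?_, A, hA, τ, hτ, k,
    hk.coprime_dvd_right ?_, hLU (inv_mul_mem_fixingSubgroup_of_restrict_eq ?_)⟩
  · apply hLU
    exact mem_fixingSubgroup_of_restrict_eq_one (hI A' hA' ι hι)
  · rw [orderOf_dvd_iff_pow_eq_one, ← QuotientGroup.mk_pow, QuotientGroup.eq_one_iff]
    apply hLU
    exact mem_fixingSubgroup_of_restrict_eq_one (by rw [map_pow, pow_orderOf_eq_one])
  · rw [map_pow, hres]

/-- Variant for an arbitrary open subgroup: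
some Frobenius outside `S` lies in `g ^ k U`, and `g ∈ τ ^ m U` for some `m`. -/
theorem exists_isFrobeniusAt_pow_coset (U : Subgroup Gℚ)
    (hU : IsOpen (U : Set Gℚ)) (g : Gℚ) (S : Finset ℕ) :
    ∃ ℓ : ℕ, ℓ.Prime ∧ ℓ ∉ S ∧
      (∀ A : ValuationSubring ℚ̄, A.LiesOverPrime ℓ → A.inertiaSubgroupIn ℚ ≤ U) ∧
      ∃ A : ValuationSubring ℚ̄, A.LiesOverPrime ℓ ∧ ∃ τ : Gℚ, A.IsFrobeniusAt τ ℓ ∧
        ∃ k m : ℕ, (g ^ k)⁻¹ * τ ∈ U ∧ (τ ^ m)⁻¹ * g ∈ U := by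
  obtain ⟨L, hfin, hgal, hLU⟩ := exists_finite_galois_fixingSubgroup_le U hU
  obtain ⟨ℓ, hℓ, hS, hI, A, hA, τ, hτ, k, hk, hres⟩ :=
    exists_isFrobeniusAt_restrict_eq_pow L (AlgEquiv.restrictNormalHom L g) S
  obtain ⟨m, hm⟩ := exists_pow_eq_self_of_coprime hk
  refine ⟨ℓ, hℓ, hS, fun A' hA' ι hι => ?_, A, hA, τ, hτ, k, m,
    hLU (inv_mul_mem_fixingSubgroup_of_restrict_eq ?_),
    hLU (inv_mul_mem_fixingSubgroup_of_restrict_eq ?_)⟩
  · apply hLU
    exact mem_fixingSubgroup_of_restrict_eq_one (hI A' hA' ι hι)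
  · rw [map_pow, hres]
  · rw [map_pow, hres, hm]

/-- Density principle: a property stable under right multiplication by an open subgroup and under
taking powers holds everywhere once it holds at all Frobenius elements outside `S` (at which, in
addition, inertia may be assumed to lie in the open subgroup). -/
theorem forall_of_forall_isFrobeniusAt' {P : Gℚ → Prop} (U : Subgroup Gℚ)
    (hU : IsOpen (U : Set Gℚ)) (S : Finset ℕ)
    (hPU : ∀ g : Gℚ, ∀ u ∈ U, P g → P (g * u))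
    (hPpow : ∀ (g : Gℚ) (k : ℕ), P g → P (g ^ k))
    (hFrob : ∀ ℓ : ℕ, ℓ.Prime → ℓ ∉ S →
      (∀ A : ValuationSubring ℚ̄, A.LiesOverPrime ℓ → A.inertiaSubgroupIn ℚ ≤ U) →
      ∀ A : ValuationSubring ℚ̄, A.LiesOverPrime ℓ → ∀ τ : Gℚ, A.IsFrobeniusAt τ ℓ → P τ)
    (g : Gℚ) : P g := by
  obtain ⟨ℓ, hℓ, hS, hI, A, hA, τ, hτ, k, m, -, hm⟩ := exists_isFrobeniusAt_pow_coset U hU g S
  have := hPU _ _ hm (hPpow τ m (hFrob ℓ hℓ hS hI A hA τ hτ))
  rwa [mul_inv_cancel_left] at this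

/-- Density principle: a property stable under right multiplication by an open subgroup and under
taking powers holds everywhere once it holds at all Frobenius elements outside `S`. -/
theorem forall_of_forall_isFrobeniusAt {P : Gℚ → Prop} (U : Subgroup Gℚ)
    (hU : IsOpen (U : Set Gℚ)) (S : Finset ℕ)
    (hPU : ∀ g : Gℚ, ∀ u ∈ U, P g → P (g * u))
    (hPpow : ∀ (g : Gℚ) (k : ℕ), P g → P (g ^ k))
    (hFrob : ∀ ℓ : ℕ, ℓ.Prime → ℓ ∉ S →
      ∀ A : ValuationSubring ℚ̄, A.LiesOverPrime ℓ → ∀ τ : Gℚ, A.IsFrobeniusAt τ ℓ → P τ)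
    (g : Gℚ) : P g :=
  forall_of_forall_isFrobeniusAt' U hU S hPU hPpow (fun ℓ hℓ hS _ => hFrob ℓ hℓ hS) g

/-- Version for closed properties, e.g. an equality of two continuous functions into a Hausdorff
space. -/
theorem forall_of_forall_isFrobeniusAt_of_isClosed {P : Gℚ → Prop} (S : Finset ℕ)
    (hPclosed : IsClosed {x | P x})
    (hPpow : ∀ (g : Gℚ) (k : ℕ), P g → P (g ^ k))
    (hFrob : ∀ ℓ : ℕ, ℓ.Prime → ℓ ∉ S →
      ∀ A : ValuationSubring ℚ̄, A.LiesOverPrime ℓ → ∀ τ : Gℚ, A.IsFrobeniusAt τ ℓ → P τ)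
    (g : Gℚ) : P g := by
  by_contra hg
  have h1 : {x | ¬ P (g * x)} ∈ nhds (1 : Gℚ) :=
    (hPclosed.isOpen_compl.preimage (continuous_const_mul g)).mem_nhds (by simpa using hg)
  obtain ⟨L, hfin, hN, hsub⟩ := (krullTopology_mem_nhds_one_iff_of_normal ℚ ℚ̄ _).1 h1
  obtain ⟨ℓ, hℓ, hS, -, A, hA, τ, hτ, k, m, -, hm⟩ :=
    exists_isFrobeniusAt_pow_coset L.fixingSubgroup L.fixingSubgroup_isOpen g S
  have h2 := hsub (inv_mem hm)
  rw [Set.mem_ofPred_eq, mul_inv_rev, inv_inv, mul_inv_cancel_left] at h2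
  exact h2 (hPpow τ m (hFrob ℓ hℓ hS A hA τ hτ))

/-- Density principle, in the form: `P` is a union of `U`-cosets and `P (g ^ k) → P g` for `k`
prime to the order of `g` modulo the normal open subgroup `U`. -/
theorem forall_of_forall_isFrobeniusAt_coprime {P : Gℚ → Prop} (U : Subgroup Gℚ)
    (hU : IsOpen (U : Set Gℚ)) [U.Normal] (S : Finset ℕ)
    (hPU : ∀ g : Gℚ, ∀ u ∈ U, P g → P (g * u))
    (hPpow : ∀ (g : Gℚ) (k : ℕ), k.Coprime (orderOf (g : Gℚ ⧸ U)) → P (g ^ k) → P g)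
    (hFrob : ∀ ℓ : ℕ, ℓ.Prime → ℓ ∉ S →
      (∀ A : ValuationSubring ℚ̄, A.LiesOverPrime ℓ → A.inertiaSubgroupIn ℚ ≤ U) →
      ∀ A : ValuationSubring ℚ̄, A.LiesOverPrime ℓ → ∀ τ : Gℚ, A.IsFrobeniusAt τ ℓ → P τ)
    (g : Gℚ) : P g := by
  obtain ⟨ℓ, hℓ, hS, hI, A, hA, τ, hτ, k, hk, hmem⟩ :=
    exists_isFrobeniusAt_mem_pow_coset U hU g S
  have h := hPU _ _ (inv_mem hmem) (hFrob ℓ hℓ hS hI A hA τ hτ)
  rw [mul_inv_rev, inv_inv, mul_inv_cancel_left] at h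
  exact hPpow g k hk h

end FLTAgent.Density
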